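/-
S26 / block ETC (etale criterion), leaf E1 (architect helper86, proof helper294).  Mathlib only.

A homomorphism of smooth algebras of the same relative dimension which is unramified at a prime is
etale at that prime.  Proof: Jacobi-Zariski sequence of `K → S → T_q`:
`H¹(L_{T_q/K}) = 0 → H¹(L_{T_q/S}) → T_q ⊗ Ω[S⁄K] → Ω[T_q⁄K] → Ω[T_q⁄S] = 0`, and a surjection between
free modules of the same finite rank is injective.
-/
import Mathlib

set_option autoImplicit false

namespace Fermat.Agent.S26.Etc

open TensorProduct KaehlerDifferential

/-- a surjective linear map between free modules of the same finite rank is injective. -/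
theorem alg_injective_of_surjective_of_finrank_eq {R M N : Type*} [CommRing R] [Nontrivial R]
    [AddCommGroup M] [AddCommGroup N] [Module R M] [Module R N] [Module.Free R M] [Module.Free R N]
    [Module.Finite R M] [Module.Finite R N] (h : Module.finrank R M = Module.finrank R N)
    (f : M →ₗ[R] N) (hf : Function.Surjective f) : Function.Injective f :=
  OrzechProperty.injective_of_surjective_of_injective
    (LinearEquiv.ofFinrankEq M N h).toLinearMap f (LinearEquiv.ofFinrankEq M N h).injective hf

/-- the module of differentials of a standard smooth algebra of relative dimension `g`. -/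
theorem alg_finrank_kaehler (K S : Type*) [CommRing K] [CommRing S] [Algebra K S] [Nontrivial S]
    (g : ℕ) [Algebra.IsStandardSmoothOfRelativeDimension g K S] :
    Module.finrank S Ω[S⁄K] = g :=
  Module.finrank_eq_of_rank_eq
    (Algebra.IsStandardSmoothOfRelativeDimension.rank_kaehlerDifferential (R := K) (S := S) g)

/-- E1 `Etc/Alg.lean`: a homomorphism of smooth algebras of the same relative dimension which is
unramified at a prime is etale at that prime. -/
theorem isEtaleAt_of_isUnramifiedAt (K S T : Type*) [CommRing K] [CommRing S] [CommRing T]
    [Algebra K S] [Algebra K T] [Algebra S T] [IsScalarTower K S T] (g : ℕ)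
    [Algebra.IsStandardSmoothOfRelativeDimension g K S]
    [Algebra.IsStandardSmoothOfRelativeDimension g K T]
    (q : Ideal T) [q.IsPrime] [Algebra.IsUnramifiedAt S q] : Algebra.IsEtaleAt S q := by
  have hS : Algebra.IsStandardSmooth K S :=
    Algebra.IsStandardSmoothOfRelativeDimension.isStandardSmooth g
  have hT : Algebra.IsStandardSmooth K T :=
    Algebra.IsStandardSmoothOfRelativeDimension.isStandardSmooth g
  have hSn : Nontrivial S := (algebraMap S (Localization.AtPrime q)).domain_nontrivial
  have hTn : Nontrivial T := (algebraMap T (Localization.AtPrime q)).domain_nontrivial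
  have hsm1 : Algebra.FormallySmooth K T := inferInstance
  have het : Algebra.FormallyEtale T (Localization.AtPrime q) :=
    Algebra.FormallyEtale.of_isLocalization q.primeCompl
  have hsm : Algebra.FormallySmooth K (Localization.AtPrime q) :=
    Algebra.FormallySmooth.comp K T (Localization.AtPrime q)
  have hsub : Subsingleton Ω[Localization.AtPrime q⁄S] := inferInstance
  -- surjectivity
  have hsurj : Function.Surjective (mapBaseChange K S (Localization.AtPrime q)) := fun x =>
    (KaehlerDifferential.exact_mapBaseChange_map K S (Localization.AtPrime q) x).mp
      (Subsingleton.elim _ _)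
  -- finiteness, freeness and ranks
  have hfS : Module.Finite S Ω[S⁄K] := inferInstance
  have hfT : Module.Finite T Ω[T⁄K] := inferInstance
  have e := tensorKaehlerEquivOfFormallyEtale K T (Localization.AtPrime q)
  have hfree : Module.Free (Localization.AtPrime q) Ω[Localization.AtPrime q⁄K] :=
    Module.Free.of_equiv e
  have hfin : Module.Finite (Localization.AtPrime q) Ω[Localization.AtPrime q⁄K] :=
    Module.Finite.equiv e
  have hrank : Module.finrank (Localization.AtPrime q) (Localization.AtPrime q ⊗[S] Ω[S⁄K]) =
      Module.finrank (Localization.AtPrime q) Ω[Localization.AtPrime q⁄K] := by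
    rw [← e.finrank_eq, Module.finrank_baseChange, Module.finrank_baseChange,
      alg_finrank_kaehler K S g, alg_finrank_kaehler K T g]
  have hinj : Function.Injective (mapBaseChange K S (Localization.AtPrime q)) :=
    alg_injective_of_surjective_of_finrank_eq hrank _ hsurj
  refine ⟨hsub, ⟨fun x y => ?_⟩⟩
  have key : ∀ z : Algebra.H1Cotangent S (Localization.AtPrime q), z = 0 := by
    intro z
    have h1 : Algebra.H1Cotangent.δ K S (Localization.AtPrime q) z = 0 := by
      apply hinj
      rw [map_zero]
      exact (Algebra.H1Cotangent.exact_δ_mapBaseChange K S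
        (Localization.AtPrime q)).apply_apply_eq_zero z
    obtain ⟨w, rfl⟩ := (Algebra.H1Cotangent.exact_map_δ K S (Localization.AtPrime q) z).mp h1
    rw [Subsingleton.elim w 0, map_zero]
  rw [key x, key y]

end Fermat.Agent.S26.Etc
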